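/-
S16 (Eisenstein ideal index), package LG (helper6), part 2: the Shimura class.

`shimuraClass p : Γ₀(p) → ℤ/n`, `n = eisensteinNumerator p = (p-1)/gcd(p-1,12)`,
`γ ↦ log (d-entry of γ mod p) mod n`.  It is a surjective homomorphism killing every `γ` whose
`d`-entry has twelfth power `1` modulo `p`; in particular all parabolic and all finite order
elements of `Γ₀(p)`.
-/
import Mathlib
import Fermat.Prelude.Def_ModularCurve_ModularUnit
import Fermat.Agent.ProgramR.ES.ParabolicDim
import Fermat.Agent.S16lib.LG.ScottCard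

set_option autoImplicit false

namespace Fermat.Agent.S16lib.LG

open Fermat.Agent.ProgramR.ES Matrix.SpecialLinearGroup CongruenceSubgroup ModularCurve
open scoped MatrixGroups ModularGroup

/-- The parabolic-or-torsion predicate on `SL(2,ℤ)`. -/
def IsParTor (g : SL(2, ℤ)) : Prop := IsPar g ∨ g ^ 12 = 1

lemma isParTor_conj (g h : SL(2, ℤ)) (hg : IsParTor g) : IsParTor (h⁻¹ * g * h) := by
  rcases hg with hg | hg
  · exact Or.inl (isPar_conj g h hg)
  · right
    have : (h⁻¹ * g * h) ^ 12 = h⁻¹ * g ^ 12 * h := by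
      have := conj_pow (a := h⁻¹) (b := g) (i := 12)
      simpa using this
    rw [this, hg]
    group

section Log

/-- Arithmetic: `N ∣ 12 e → N / gcd(N,12) ∣ e`. -/
lemma div_gcd_dvd_of_dvd_twelve_mul (N e : ℕ) (hN : 0 < N) (h : N ∣ 12 * e) :
    N / Nat.gcd N 12 ∣ e := by
  set g := Nat.gcd N 12 with hg
  have hgpos : 0 < g := Nat.gcd_pos_of_pos_left _ hN
  have hcop : Nat.Coprime (N / g) (12 / g) := Nat.coprime_div_gcd_div_gcd hgpos
  have hN' : N = g * (N / g) := (Nat.mul_div_cancel' (Nat.gcd_dvd_left N 12)).symm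
  have h12 : 12 = g * (12 / g) := (Nat.mul_div_cancel' (Nat.gcd_dvd_right N 12)).symm
  have h2 : g * (N / g) ∣ g * ((12 / g) * e) := by
    rw [← hN', ← mul_assoc, ← h12]
    exact h
  have h3 : N / g ∣ (12 / g) * e := Nat.dvd_of_mul_dvd_mul_left hgpos h2
  exact hcop.dvd_of_dvd_mul_left h3

variable (p : ℕ) [Fact p.Prime]

omit [Fact p.Prime] in
/-- `n = eisensteinNumerator p` divides `p - 1`. -/
lemma eisNum_dvd : eisensteinNumerator p ∣ p - 1 := eisensteinNumerator_dvd p

lemma eisNum_pos : 0 < eisensteinNumerator p := by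
  have hp : 2 ≤ p := (Fact.out : p.Prime).two_le
  unfold eisensteinNumerator
  apply Nat.div_pos
  · exact Nat.le_of_dvd (by omega) (Nat.gcd_dvd_left _ _)
  · exact Nat.gcd_pos_of_pos_right _ (by norm_num)

instance : NeZero (eisensteinNumerator p) := ⟨(eisNum_pos p).ne'⟩

instance : NeZero (p - 1) := ⟨by
  have hp : 2 ≤ p := (Fact.out : p.Prime).two_le
  omega⟩

lemma card_additive_units : Nat.card (Additive (ZMod p)ˣ) = p - 1 := by
  show Nat.card (ZMod p)ˣ = p - 1
  rw [Nat.card_eq_fintype_card, ZMod.card_units]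

/-- A (noncanonical) discrete logarithm `(ℤ/p)ˣ ≃ ℤ/(p-1)`. -/
noncomputable def logEquiv : ZMod (p - 1) ≃+ Additive (ZMod p)ˣ :=
  zmodAddEquivOfGenerator
    (Classical.choose_spec (IsAddCyclic.exists_generator (α := Additive (ZMod p)ˣ)))
    (card_additive_units p)

/-- The discrete logarithm modulo `n = eisensteinNumerator p`. -/
noncomputable def logMod : Additive (ZMod p)ˣ →+ ZMod (eisensteinNumerator p) :=
  ((ZMod.castHom (eisNum_dvd p) (ZMod (eisensteinNumerator p))).toAddMonoidHom).comp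
    (logEquiv p).symm.toAddMonoidHom

lemma logMod_surjective : Function.Surjective (logMod p) := by
  intro y
  obtain ⟨x, hx⟩ := ZMod.castHom_surjective (eisNum_dvd p) y
  exact ⟨logEquiv p x, by
    show (ZMod.castHom (eisNum_dvd p) (ZMod (eisensteinNumerator p))) ((logEquiv p).symm
      (logEquiv p x)) = y
    rw [AddEquiv.symm_apply_apply, hx]⟩

/-- `logMod` kills every unit of order dividing `12`. -/
lemma logMod_eq_zero_of_pow_twelve (u : (ZMod p)ˣ) (hu : u ^ 12 = 1) :
    logMod p (Additive.ofMul u) = 0 := by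
  set e : ZMod (p - 1) := (logEquiv p).symm (Additive.ofMul u) with he
  have h12 : (12 : ℕ) • e = 0 := by
    rw [he, ← map_nsmul, ← ofMul_pow, hu, ofMul_one, map_zero]
  have hval : ((12 * e.val : ℕ) : ZMod (p - 1)) = 0 := by
    rw [Nat.cast_mul, ZMod.natCast_zmod_val, ← h12, nsmul_eq_mul]
  have hdvd : (p - 1) ∣ 12 * e.val := (ZMod.natCast_eq_zero_iff _ _).mp hval
  have hp1 : 0 < p - 1 := Nat.pos_of_ne_zero (NeZero.ne _)
  have hn : eisensteinNumerator p ∣ e.val :=
    div_gcd_dvd_of_dvd_twelve_mul (p - 1) e.val hp1 hdvd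
  show (ZMod.castHom (eisNum_dvd p) (ZMod (eisensteinNumerator p))) e = 0
  rw [← ZMod.natCast_zmod_val e, map_natCast]
  exact (ZMod.natCast_eq_zero_iff _ _).mpr hn

end Log

section DChar

variable (p : ℕ) [Fact p.Prime]

/-- The `d`-entry character `Γ₀(p) → (ℤ/p)ˣ`. -/
noncomputable def dChar : Gamma0 p →* (ZMod p)ˣ := (Gamma0Map p).toHomUnits

lemma dChar_coe (γ : Gamma0 p) :
    ((dChar p γ : (ZMod p)ˣ) : ZMod p) = (((γ : SL(2, ℤ)) 1 1 : ℤ) : ZMod p) := rfl

lemma dChar_surjective : Function.Surjective (dChar p) := by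
  intro u
  have hp : p.Prime := Fact.out
  set d : ℕ := (u : ZMod p).val with hd
  have hdu : ((d : ℕ) : ZMod p) = (u : ZMod p) := ZMod.natCast_zmod_val _
  have hcop : IsCoprime (d : ℤ) (p : ℤ) := by
    rw [Int.isCoprime_iff_gcd_eq_one, Int.gcd_natCast_natCast]
    have hnd : ¬ p ∣ d := by
      intro hpd
      have : ((d : ℕ) : ZMod p) = 0 := (ZMod.natCast_eq_zero_iff _ _).mpr hpd
      rw [hdu] at this
      exact u.ne_zero this
    exact (Nat.Coprime.symm ((Nat.Prime.coprime_iff_not_dvd hp).mpr hnd))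
  obtain ⟨a, b, hab⟩ := hcop
  -- the matrix `[[a, -b], [p, d]]`
  have hdet : Matrix.det !![a, -b; (p : ℤ), (d : ℤ)] = 1 := by
    rw [Matrix.det_fin_two_of]
    linarith
  let g : SL(2, ℤ) := ⟨!![a, -b; (p : ℤ), (d : ℤ)], hdet⟩
  have hg : g ∈ Gamma0 p := by
    rw [Gamma0_mem]
    show (((p : ℤ) : ℤ) : ZMod p) = 0
    simp
  refine ⟨⟨g, hg⟩, ?_⟩
  apply Units.ext
  rw [dChar_coe]
  show (((d : ℤ) : ℤ) : ZMod p) = (u : ZMod p)
  rw [Int.cast_natCast, hdu]

/-- A parabolic element of `Γ₀(p)` has `d² ≡ 1`. -/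
lemma dChar_sq_of_isPar (γ : Gamma0 p) (hγ : IsPar (γ : SL(2, ℤ))) : dChar p γ ^ 2 = 1 := by
  have hp : p.Prime := Fact.out
  apply Units.ext
  rw [Units.val_pow_eq_pow_val, dChar_coe, Units.val_one]
  set A := (γ : SL(2, ℤ)) with hA
  have hc : ((A 1 0 : ℤ) : ZMod p) = 0 := Gamma0_mem.mp γ.2
  have hdet : A 0 0 * A 1 1 - A 0 1 * A 1 0 = 1 := by
    have := A.det_coe
    rw [Matrix.det_fin_two] at this
    exact this
  have htr : (A 0 0 + A 1 1) ^ 2 = 4 := by
    have := hγ
    unfold IsPar at this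
    rw [Matrix.trace_fin_two] at this
    exact this
  have hdet' : ((A 0 0 : ℤ) : ZMod p) * ((A 1 1 : ℤ) : ZMod p) = 1 := by
    have := congrArg (Int.cast : ℤ → ZMod p) hdet
    push_cast at this
    rw [hc, mul_zero, sub_zero] at this
    exact this
  have htr' : (((A 0 0 : ℤ) : ZMod p) + ((A 1 1 : ℤ) : ZMod p)) ^ 2 = 4 := by
    have := congrArg (Int.cast : ℤ → ZMod p) htr
    push_cast at this
    exact this
  set a := ((A 0 0 : ℤ) : ZMod p)
  set d := ((A 1 1 : ℤ) : ZMod p)
  have hsq : (a - d) ^ 2 = 0 := by linear_combination htr' - 4 * hdet'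
  have had : a = d := by
    have := pow_eq_zero_iff (two_ne_zero) |>.mp hsq
    exact sub_eq_zero.mp this
  rw [had] at hdet'
  rw [pow_two]
  exact hdet'

/-- Every element of `Γ₀(p)` satisfying `IsParTor` has `d¹² ≡ 1`. -/
lemma dChar_pow_twelve_of_isParTor (γ : Gamma0 p) (hγ : IsParTor (γ : SL(2, ℤ))) :
    dChar p γ ^ 12 = 1 := by
  rcases hγ with h | h
  · have := dChar_sq_of_isPar p γ h
    calc dChar p γ ^ 12 = (dChar p γ ^ 2) ^ 6 := by rw [← pow_mul]
      _ = 1 := by rw [this, one_pow]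
  · have h' : γ ^ 12 = 1 := by
      apply Subtype.ext
      rw [Subgroup.coe_pow, h]
      rfl
    rw [← map_pow, h', map_one]

end DChar

section Shimura

variable (p : ℕ) [Fact p.Prime]

/-- **The Shimura class** `Γ₀(p) → ℤ/n`, `γ ↦ log(d(γ)) mod n`. -/
noncomputable def shimuraClass : Additive (Gamma0 p) →+ ZMod (eisensteinNumerator p) :=
  (logMod p).comp (MonoidHom.toAdditive (dChar p))

lemma shimuraClass_apply (γ : Gamma0 p) :
    shimuraClass p (Additive.ofMul γ) = logMod p (Additive.ofMul (dChar p γ)) := rfl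

lemma shimuraClass_surjective : Function.Surjective (shimuraClass p) := by
  intro y
  obtain ⟨u, hu⟩ := logMod_surjective p y
  obtain ⟨γ, hγ⟩ := dChar_surjective p (Additive.toMul u)
  refine ⟨Additive.ofMul γ, ?_⟩
  rw [shimuraClass_apply, hγ]
  exact hu

lemma shimuraClass_mem_parHomsM :
    shimuraClass p ∈ parHomsM (Gamma0 p) IsParTor (ZMod (eisensteinNumerator p)) := by
  intro γ hγ
  rw [shimuraClass_apply]
  exact logMod_eq_zero_of_pow_twelve p _ (dChar_pow_twelve_of_isParTor p γ hγ)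

end Shimura

end Fermat.Agent.S16lib.LG
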