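/-
S16 (Eisenstein ideal index), package LG (helper6), part 3:
`|Hom⁰(Γ₀(N), M)| ≤ |M| ^ (2g)` for every finite abelian group `M`, where `Hom⁰` denotes the
homomorphisms killing the parabolic and the finite order elements.
-/
import Mathlib
import Fermat.Agent.S16lib.LG.Shimura

set_option autoImplicit false

namespace Fermat.Agent.S16lib.LG

open Fermat.Agent.ProgramR.ES Fermat.Agent.ProgramR.Genus Matrix.SpecialLinearGroup
  CongruenceSubgroup ModularCurve
open scoped MatrixGroups ModularGroup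

lemma S_pow_four : (ModularGroup.S : SL(2, ℤ)) ^ 4 = 1 := by
  have h : (ModularGroup.S : SL(2, ℤ)) ^ 4 = (ModularGroup.S * ModularGroup.S) *
      (ModularGroup.S * ModularGroup.S) := by
    rw [← pow_two, ← pow_two, ← pow_mul]
  rw [h, S_mul_S]
  simp

lemma ST_pow_six : ((ModularGroup.S * ModularGroup.T : SL(2, ℤ))) ^ 6 = 1 := by
  have h : ((ModularGroup.S * ModularGroup.T : SL(2, ℤ))) ^ 6 =
      (ModularGroup.S * ModularGroup.T) ^ 3 * (ModularGroup.S * ModularGroup.T) ^ 3 := by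
    rw [← pow_add]
  rw [h, ST_cube]
  simp

lemma isParTor_S_pow (m : ℕ) : IsParTor ((ModularGroup.S : SL(2, ℤ)) ^ m) := by
  right
  rw [← pow_mul, mul_comm, show 12 * m = 4 * (3 * m) by ring, pow_mul, S_pow_four, one_pow]

lemma isParTor_T_pow (m : ℕ) : IsParTor ((ModularGroup.T : SL(2, ℤ)) ^ m) :=
  Or.inl (isPar_T_pow m)

lemma isParTor_ST_inv_pow (m : ℕ) :
    IsParTor (((ModularGroup.S * ModularGroup.T : SL(2, ℤ)))⁻¹ ^ m) := by
  right
  rw [← pow_mul, inv_pow, mul_comm, show 12 * m = 6 * (2 * m) by ring, pow_mul, ST_pow_six,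
    one_pow, inv_one]

variable (N : ℕ) [NeZero N]

attribute [local instance] cosetFintype

open Classical in
/-- **Scott–Shapiro for `Γ₀(N)`**: `|Hom⁰(Γ₀(N), M)| ≤ |M| ^ (2g)`. -/
theorem card_parHomsM_Gamma0_le (M : Type*) [AddCommGroup M] [Finite M] (g : ℕ)
    (hg : (g : ℚ) = ModularCurve.genusFormula N) :
    Nat.card ↥(parHomsM (Gamma0 N) IsParTor M) ≤ Nat.card M ^ (2 * g) := by
  have h := card_parHomsM_mul_le (Gamma0 N) M (Par := IsParTor) isParTor_conj
    ModularGroup.S ModularGroup.T (ModularGroup.S * ModularGroup.T)⁻¹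
    (fun _ m _ _ => isParTor_S_pow m) (fun _ m _ _ => isParTor_T_pow m)
    (fun _ m _ _ => isParTor_ST_inv_pow m) (by group) SpecialLinearGroup.SL2Z_generators
  obtain ⟨g', hg', hgq⟩ := exists_genus_cyc N
  have hgg : g = g' := by
    have : (g : ℚ) = (g' : ℚ) := by rw [hg, hgq]
    exact_mod_cast this
  subst hgg
  have e1 : (MulAction.toPerm (ModularGroup.S : SL(2, ℤ)) : Equiv.Perm (SL(2, ℤ) ⧸ Gamma0 N))
      = sigmaN N := rfl
  have e2 : (MulAction.toPerm (ModularGroup.T : SL(2, ℤ)) : Equiv.Perm (SL(2, ℤ) ⧸ Gamma0 N))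
      = tauN N := rfl
  have e3 : (MulAction.toPerm ((ModularGroup.S * ModularGroup.T)⁻¹ : SL(2, ℤ)) :
      Equiv.Perm (SL(2, ℤ) ⧸ Gamma0 N)) = (sigmaN N * tauN N)⁻¹ := by
    have := map_inv (MulAction.toPermHom SL(2, ℤ) (SL(2, ℤ) ⧸ Gamma0 N))
      (ModularGroup.S * ModularGroup.T)
    rw [map_mul] at this
    exact this
  rw [e1, e2, e3, cyc_inv, ← hg'] at h
  have hm : 0 < Nat.card M := Nat.card_pos
  rw [pow_add _ _ (2 * g), mul_comm] at h
  exact Nat.le_of_mul_le_mul_left h (pow_pos hm _)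

end Fermat.Agent.S16lib.LG
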