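/-
S16 (Eisenstein ideal index), package LG (helper6), part 4: lifting.

Every homomorphism `Γ₀(N) → ℤ/n` killing the parabolic and finite order elements is the reduction
modulo `n` of an element of `V = parabolicHoms ℤ Γ₀(N) ℤ`.

Proof: `V` is free of finite rank `ρ`; `ρ ≥ dim_ℂ parabolicHoms ℂ = 2g` (S21 + S20); the reduction
map `V/nV → Hom⁰(Γ₀(N), ℤ/n)` is injective, the source has `n^ρ` elements, the target at most
`n^{2g}` (Scott–Shapiro count), hence it is bijective.
-/
import Mathlib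
import Fermat.Agent.S16lib.LG.Gamma0Count
import Fermat.Agent.S21

set_option autoImplicit false

namespace Fermat.Agent.S16lib.LG

open Fermat.Agent.ProgramR.ES Fermat.Agent.ProgramR.Genus Matrix.SpecialLinearGroup
  CongruenceSubgroup ModularCurve ModularCurve.Period
open scoped MatrixGroups ModularGroup

section FG

lemma SL2Z_fg : Group.FG SL(2, ℤ) := by
  rw [Group.fg_iff]
  exact ⟨{ModularGroup.S, ModularGroup.T}, SpecialLinearGroup.SL2Z_generators, by simp⟩

lemma Gamma0_fg (N : ℕ) [NeZero N] : Group.FG (Gamma0 N) := by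
  have := SL2Z_fg
  exact Subgroup.fg_of_index_ne_zero (Gamma0 N)

variable {Γ : Type*} [Group Γ] {A : Type*} [AddCommGroup A]

/-- Two homomorphisms agreeing on a generating set agree. -/
lemma addHom_ext_of_closure (S : Set Γ) (hS : Subgroup.closure S = ⊤)
    (φ φ' : Additive Γ →+ A) (h : ∀ s ∈ S, φ (Additive.ofMul s) = φ' (Additive.ofMul s)) :
    φ = φ' := by
  let K : Subgroup Γ :=
    { carrier := {γ | φ (Additive.ofMul γ) = φ' (Additive.ofMul γ)}
      mul_mem' := by
        intro a b ha hb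
        show φ (Additive.ofMul (a * b)) = φ' (Additive.ofMul (a * b))
        rw [ofMul_mul, map_add, map_add, ha, hb]
      one_mem' := by
        show φ (Additive.ofMul 1) = φ' (Additive.ofMul 1)
        rw [ofMul_one, map_zero, map_zero]
      inv_mem' := by
        intro a ha
        show φ (Additive.ofMul a⁻¹) = φ' (Additive.ofMul a⁻¹)
        rw [ofMul_inv, map_neg, map_neg, ha] }
  have hK : Subgroup.closure S ≤ K := (Subgroup.closure_le K).mpr h
  rw [hS] at hK
  apply AddMonoidHom.ext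
  intro a
  exact hK (Subgroup.mem_top (Additive.toMul a))

/-- Evaluation at a family of elements. -/
def evalAt (S : Finset Γ) (A : Type*) [AddCommGroup A] : (Additive Γ →+ A) →+ (↥S → A) where
  toFun φ := fun s => φ (Additive.ofMul s.1)
  map_zero' := rfl
  map_add' _ _ := rfl

lemma evalAt_injective (S : Finset Γ) (hS : Subgroup.closure (S : Set Γ) = ⊤) :
    Function.Injective (evalAt S A) := by
  intro φ φ' h
  apply addHom_ext_of_closure (S : Set Γ) hS
  intro s hs
  exact congrFun h ⟨s, hs⟩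

lemma finite_addHom [Group.FG Γ] [Finite A] : Finite (Additive Γ →+ A) := by
  obtain ⟨S, hS⟩ := (Group.FG.out : (⊤ : Subgroup Γ).FG)
  exact Finite.of_injective _ (evalAt_injective (A := A) S hS)

instance isNoetherian_addHom_int [Group.FG Γ] : IsNoetherian ℤ (Additive Γ →+ ℤ) := by
  obtain ⟨S, hS⟩ := (Group.FG.out : (⊤ : Subgroup Γ).FG)
  exact isNoetherian_of_injective (evalAt S ℤ).toIntLinearMap (evalAt_injective (A := ℤ) S hS)

instance isTorsionFree_addHom_int : Module.IsTorsionFree ℤ (Additive Γ →+ ℤ) := by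
  apply Module.IsTorsionFree.of_smul_eq_zero
  intro r φ h
  by_cases hr : r = 0
  · exact Or.inl hr
  right
  apply AddMonoidHom.ext
  intro a
  have := congrArg (fun ψ : Additive Γ →+ ℤ => ψ a) h
  simp only [AddMonoidHom.smul_apply, AddMonoidHom.zero_apply, smul_eq_mul, mul_eq_zero] at this
  exact this.resolve_left hr

end FG

section Lattice

variable (Γ : Subgroup SL(2, ℤ)) [Group.FG Γ]

/-- `V = parabolicHoms ℤ Γ ℤ`. -/
abbrev VZ : Submodule ℤ (Additive Γ →+ ℤ) := parabolicHoms ℤ Γ ℤ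

instance : Module.Finite ℤ ↥(VZ Γ) := Module.IsNoetherian.finite ℤ ↥(VZ Γ)

instance : Module.IsTorsionFree ℤ ↥(VZ Γ) := by
  apply Module.IsTorsionFree.of_smul_eq_zero
  intro r φ h
  have h' : r • (φ : Additive Γ →+ ℤ) = 0 := by
    have := congrArg (Subtype.val) h
    simpa using this
  rcases (Module.isTorsionFree_iff_smul_eq_zero.mp (isTorsionFree_addHom_int (Γ := Γ))) r _ h'
    with h0 | h0
  · exact Or.inl h0
  · exact Or.inr (Subtype.ext h0)

instance : Module.Free ℤ ↥(VZ Γ) := Module.free_of_finite_type_torsion_free'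

/-- Index type of a `ℤ`-basis of `V`. -/
abbrev VIdx : Type := Module.Free.ChooseBasisIndex ℤ ↥(VZ Γ)

/-- A `ℤ`-basis of `V`. -/
noncomputable def vBasis : Module.Basis (VIdx Γ) ℤ ↥(VZ Γ) := Module.Free.chooseBasis ℤ ↥(VZ Γ)

/-- Composition with a homomorphism of coefficient groups. -/
def pushHom {A B : Type*} [AddCommGroup A] [AddCommGroup B] (f : A →+ B) :
    (Additive Γ →+ A) →+ (Additive Γ →+ B) where
  toFun φ := f.comp φ
  map_zero' := by ext; simp
  map_add' φ ψ := by ext; simp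

omit [Group.FG Γ] in
@[simp] lemma pushHom_apply {A B : Type*} [AddCommGroup A] [AddCommGroup B] (f : A →+ B)
    (φ : Additive Γ →+ A) (a : Additive Γ) : pushHom Γ f φ a = f (φ a) := rfl

/-- The complexification of an integral homomorphism. -/
noncomputable abbrev toC : (Additive Γ →+ ℤ) →+ (Additive Γ →+ ℂ) := pushHom Γ (Int.castAddHom ℂ)

/-- The `ℂ`-span of the complexified basis of `V`. -/
noncomputable def spanVC : Submodule ℂ (Additive Γ →+ ℂ) :=
  Submodule.span ℂ (Set.range (fun i : VIdx Γ => toC Γ ((vBasis Γ i : ↥(VZ Γ)) : Additive Γ →+ ℤ)))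

lemma toC_mem_spanVC (v : ↥(VZ Γ)) : toC Γ (v : Additive Γ →+ ℤ) ∈ spanVC Γ := by
  have hv : v = ∑ i, (vBasis Γ).repr v i • vBasis Γ i := ((vBasis Γ).sum_repr v).symm
  have hv' : (v : Additive Γ →+ ℤ) =
      ∑ i, (vBasis Γ).repr v i • ((vBasis Γ i : ↥(VZ Γ)) : Additive Γ →+ ℤ) := by
    have := congrArg (fun w : ↥(VZ Γ) => (w : Additive Γ →+ ℤ)) hv
    simp only [Submodule.coe_sum, Submodule.coe_smul] at this
    exact this
  rw [hv', map_sum]
  refine Submodule.sum_mem _ ?_
  intro i _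
  rw [map_zsmul, ← Int.cast_smul_eq_zsmul ℂ]
  exact Submodule.smul_mem _ _ (Submodule.subset_span ⟨i, rfl⟩)

/-- Every complex parabolic homomorphism is a complex combination of integral ones. -/
lemma parabolicHoms_complex_le_spanVC : parabolicHoms ℂ Γ ℂ ≤ spanVC Γ := by
  intro φ hφ
  obtain ⟨S, hS⟩ := (Group.FG.out : (⊤ : Subgroup Γ).FG)
  -- the (finitely generated, free) group of values
  set A : Submodule ℤ ℂ := Submodule.span ℤ (Set.range (fun s : ↥S => φ (Additive.ofMul s.1)))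
    with hA
  have hAfg : A.FG := Submodule.fg_span (Set.finite_range _)
  have : Module.Finite ℤ ↥A := Module.Finite.of_fg hAfg
  have : Module.Free ℤ ↥A := Module.free_of_finite_type_torsion_free'
  let e := Module.Free.chooseBasis ℤ ↥A
  -- all values lie in `A`
  have hval : ∀ a : Additive Γ, φ a ∈ A := by
    let K : Subgroup Γ :=
      { carrier := {γ | φ (Additive.ofMul γ) ∈ A}
        mul_mem' := by
          intro a b ha hb
          show φ (Additive.ofMul (a * b)) ∈ A
          rw [ofMul_mul, map_add]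
          exact A.add_mem ha hb
        one_mem' := by
          show φ (Additive.ofMul 1) ∈ A
          rw [ofMul_one, map_zero]
          exact A.zero_mem
        inv_mem' := by
          intro a ha
          show φ (Additive.ofMul a⁻¹) ∈ A
          rw [ofMul_inv, map_neg]
          exact A.neg_mem ha }
    have hK : Subgroup.closure (S : Set Γ) ≤ K := by
      rw [Subgroup.closure_le]
      intro s hs
      exact Submodule.subset_span ⟨⟨s, hs⟩, rfl⟩
    rw [hS] at hK
    intro a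
    exact hK (Subgroup.mem_top (Additive.toMul a))
  -- `φ` with values in `A`
  let φA : Additive Γ →+ ↥A :=
    { toFun := fun a => ⟨φ a, hval a⟩
      map_zero' := Subtype.ext (map_zero φ)
      map_add' := fun a b => Subtype.ext (map_add φ a b) }
  -- coordinates
  let φc : Module.Free.ChooseBasisIndex ℤ ↥A → (Additive Γ →+ ℤ) :=
    fun j => (e.coord j).toAddMonoidHom.comp φA
  have hφc : ∀ j, φc j ∈ VZ Γ := by
    intro j γ hγ
    have h0 : φ (Additive.ofMul γ) = 0 := hφ γ hγ
    have h1 : φA (Additive.ofMul γ) = 0 := Subtype.ext h0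
    show e.coord j (φA (Additive.ofMul γ)) = 0
    rw [h1, map_zero]
  have hsum : φ = ∑ j, ((e j : ↥A) : ℂ) • toC Γ (φc j) := by
    apply AddMonoidHom.ext
    intro a
    have h1 : φA a = ∑ j, e.repr (φA a) j • e j := (e.sum_repr (φA a)).symm
    have h2 : φ a = ∑ j, e.repr (φA a) j • ((e j : ↥A) : ℂ) := by
      have := congrArg (fun w : ↥A => (w : ℂ)) h1
      simp only [Submodule.coe_sum, Submodule.coe_smul] at this
      exact this
    rw [AddMonoidHom.finsetSum_apply]
    conv_lhs => rw [h2]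
    refine Finset.sum_congr rfl ?_
    intro j _
    rw [AddMonoidHom.smul_apply, pushHom_apply]
    show _ = ((e j : ↥A) : ℂ) • (((e.coord j) (φA a) : ℤ) : ℂ)
    rw [zsmul_eq_mul, smul_eq_mul, mul_comm]
    rfl
  rw [hsum]
  refine Submodule.sum_mem _ ?_
  intro j _
  exact Submodule.smul_mem _ _ (toC_mem_spanVC Γ ⟨φc j, hφc j⟩)

/-- The rank of `V` is at least the complex dimension of the complex parabolic homomorphisms. -/
lemma finrank_parabolicHoms_complex_le_card
    [FiniteDimensional ℂ ↥(parabolicHoms ℂ Γ ℂ)] :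
    Module.finrank ℂ ↥(parabolicHoms ℂ Γ ℂ) ≤ Fintype.card (VIdx Γ) := by
  have hfin : Module.Finite ℂ ↥(spanVC Γ) :=
    FiniteDimensional.span_of_finite ℂ (Set.finite_range _)
  calc Module.finrank ℂ ↥(parabolicHoms ℂ Γ ℂ)
      ≤ Module.finrank ℂ ↥(spanVC Γ) := Submodule.finrank_mono (parabolicHoms_complex_le_spanVC Γ)
    _ ≤ Fintype.card (VIdx Γ) := finrank_range_le_card _

variable (n : ℕ) [NeZero n]

/-- Reduction modulo `n`. -/
noncomputable abbrev toZModn : (Additive Γ →+ ℤ) →+ (Additive Γ →+ ZMod n) :=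
  pushHom Γ (Int.castAddHom (ZMod n))

omit [Group.FG Γ] in
/-- Saturation: an element of `V` vanishing modulo `n` is `n` times an element of `V`. -/
lemma exists_eq_nsmul_of_toZModn_eq_zero (v : Additive Γ →+ ℤ) (hv : v ∈ VZ Γ)
    (h : toZModn Γ n v = 0) : ∃ w ∈ VZ Γ, v = (n : ℤ) • w := by
  have hn : (n : ℤ) ≠ 0 := by exact_mod_cast NeZero.ne n
  have hdvd : ∀ a, (n : ℤ) ∣ v a := by
    intro a
    have := congrArg (fun ψ : Additive Γ →+ ZMod n => ψ a) h
    simp only [pushHom_apply, AddMonoidHom.zero_apply, Int.coe_castAddHom] at this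
    exact (ZMod.intCast_zmod_eq_zero_iff_dvd _ _).mp this
  let w : Additive Γ →+ ℤ :=
    { toFun := fun a => v a / n
      map_zero' := by simp
      map_add' := by
        intro a b
        show v (a + b) / (n : ℤ) = v a / n + v b / n
        rw [map_add, Int.add_ediv_of_dvd_left (hdvd a)] }
  refine ⟨w, ?_, ?_⟩
  · intro γ hγ
    show v (Additive.ofMul γ) / (n : ℤ) = 0
    rw [hv γ hγ, Int.zero_ediv]
  · apply AddMonoidHom.ext
    intro a
    show v a = (n : ℤ) • (v a / (n : ℤ))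
    rw [smul_eq_mul, Int.mul_ediv_cancel' (hdvd a)]

/-- The map `(ℤ/n)^I → Hom(Γ, ℤ/n)`, `c ↦ (Σ cᵢ bᵢ) mod n`. -/
noncomputable def liftMap (c : VIdx Γ → Fin n) : Additive Γ →+ ZMod n :=
  toZModn Γ n ((∑ i, ((c i : ℕ) : ℤ) • vBasis Γ i : ↥(VZ Γ)) : Additive Γ →+ ℤ)

lemma liftMap_injective : Function.Injective (liftMap Γ n) := by
  intro c c' hcc
  have hn : (0 : ℤ) < n := by exact_mod_cast Nat.pos_of_ne_zero (NeZero.ne n)
  set D : ↥(VZ Γ) := ∑ i, (((c i : ℕ) : ℤ) - ((c' i : ℕ) : ℤ)) • vBasis Γ i with hD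
  have hD' : D = (∑ i, ((c i : ℕ) : ℤ) • vBasis Γ i) - ∑ i, ((c' i : ℕ) : ℤ) • vBasis Γ i := by
    rw [hD, ← Finset.sum_sub_distrib]
    refine Finset.sum_congr rfl ?_
    intro i _
    rw [sub_smul]
  have hzero : toZModn Γ n (D : Additive Γ →+ ℤ) = 0 := by
    rw [hD', Submodule.coe_sub, map_sub, sub_eq_zero]
    exact hcc
  obtain ⟨w, hw, hDw⟩ := exists_eq_nsmul_of_toZModn_eq_zero Γ n _ D.2 hzero
  have hDw' : D = (n : ℤ) • (⟨w, hw⟩ : ↥(VZ Γ)) := Subtype.ext hDw
  funext i
  have h1 : (vBasis Γ).repr D i = ((c i : ℕ) : ℤ) - ((c' i : ℕ) : ℤ) := by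
    rw [hD, (vBasis Γ).repr_sum_self]
  have h2 : (vBasis Γ).repr D i = (n : ℤ) * (vBasis Γ).repr ⟨w, hw⟩ i := by
    rw [hDw', map_smul, Finsupp.smul_apply, smul_eq_mul]
  have h3 : (n : ℤ) ∣ ((c i : ℕ) : ℤ) - ((c' i : ℕ) : ℤ) := ⟨_, h1.symm.trans h2⟩
  have h4 : ((c i : ℕ) : ℤ) % n = ((c' i : ℕ) : ℤ) % n :=
    Int.emod_eq_emod_iff_emod_sub_eq_zero.mpr (Int.emod_eq_zero_of_dvd h3)
  have hc : ((c i : ℕ) : ℤ) < n := by exact_mod_cast (c i).2
  have hc' : ((c' i : ℕ) : ℤ) < n := by exact_mod_cast (c' i).2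
  rw [Int.emod_eq_of_lt (by positivity) hc, Int.emod_eq_of_lt (by positivity) hc'] at h4
  exact Fin.ext (by exact_mod_cast h4)

end Lattice

section Main

variable (N : ℕ) [NeZero N]

instance : Group.FG (Gamma0 N) := Gamma0_fg N

/-- `dim_ℂ parabolicHoms ℂ Γ₀(N) ℂ = 2g` (S21 + S20). -/
lemma finrank_parabolicHoms_complex (g : ℕ) (hg : (g : ℚ) = ModularCurve.genusFormula N) :
    FiniteDimensional ℂ ↥(parabolicHoms ℂ (Gamma0 N) ℂ) ∧
      Module.finrank ℂ ↥(parabolicHoms ℂ (Gamma0 N) ℂ) = 2 * g := by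
  have hfd : FiniteDimensional ℂ ↥(parabolicHoms ℂ (Gamma0 N) ℂ) := (finrank_parabolicHoms_le N).1
  refine ⟨hfd, ?_⟩
  have : FiniteDimensional ℂ (CuspForm (Gamma0 N) 2) := finiteDimensional_cuspForm N
  obtain ⟨hinj, hrange⟩ := Fermat.Agent.S21.result N
  have h1 : Module.finrank ℂ ↥(LinearMap.range (periodHomPair N)) =
      Module.finrank ℂ (CuspForm (Gamma0 N) 2 × CuspForm (Gamma0 N) 2) :=
    LinearMap.finrank_range_of_inj hinj
  have h2 : Module.finrank ℂ (CuspForm (Gamma0 N) 2 × CuspForm (Gamma0 N) 2) =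
      Module.finrank ℂ (CuspForm (Gamma0 N) 2) + Module.finrank ℂ (CuspForm (Gamma0 N) 2) :=
    Module.finrank_prod
  have h3 : Module.finrank ℂ (CuspForm (Gamma0 N) 2) = g := by
    have := Fermat.Agent.ProgramR.S20.finrank_cuspForm_gamma0 N
    rw [← hg] at this
    exact_mod_cast this
  rw [hrange] at h1
  rw [h1, h2, h3]
  ring

/-- **Lifting.**  Every homomorphism `Γ₀(N) → ℤ/n` killing the parabolic and the finite order
elements is the reduction of an integral parabolic homomorphism. -/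
theorem exists_parabolic_lift (n : ℕ) [NeZero n] (ψ : Additive (Gamma0 N) →+ ZMod n)
    (hψ : ψ ∈ parHomsM (Gamma0 N) IsParTor (ZMod n)) :
    ∃ φ : Additive (Gamma0 N) →+ ℤ, φ ∈ parabolicHoms ℤ (Gamma0 N) ℤ ∧
      ∀ γ : Gamma0 N, ((φ (Additive.ofMul γ) : ℤ) : ZMod n) = ψ (Additive.ofMul γ) := by
  obtain ⟨g, hg⟩ := genusFormula_eq_nat N
  obtain ⟨hfd, hrank⟩ := finrank_parabolicHoms_complex N g hg
  have hle : 2 * g ≤ Fintype.card (VIdx (Gamma0 N)) := by
    rw [← hrank]
    exact finrank_parabolicHoms_complex_le_card (Gamma0 N)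
  -- the reduction of an element of `V` lies in `Hom⁰`
  have hmem : ∀ v : ↥(VZ (Gamma0 N)),
      toZModn (Gamma0 N) n (v : Additive (Gamma0 N) →+ ℤ) ∈
        parHomsM (Gamma0 N) IsParTor (ZMod n) := by
    intro v γ hγ
    have hv0 : (v : Additive (Gamma0 N) →+ ℤ) (Additive.ofMul γ) = 0 := by
      rcases hγ with h | h
      · exact v.2 γ h
      · have h' : γ ^ 12 = 1 := by
          apply Subtype.ext
          rw [Subgroup.coe_pow, h]
          rfl
        have h12 : (12 : ℕ) • (v : Additive (Gamma0 N) →+ ℤ) (Additive.ofMul γ) = 0 := by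
          rw [← map_nsmul, ← ofMul_pow, h', ofMul_one, map_zero]
        simpa using h12
    show ((Int.castAddHom (ZMod n)) ((v : Additive (Gamma0 N) →+ ℤ) (Additive.ofMul γ))) = 0
    rw [hv0, map_zero]
  let F : (VIdx (Gamma0 N) → Fin n) → ↥(parHomsM (Gamma0 N) IsParTor (ZMod n)) :=
    fun c => ⟨liftMap (Gamma0 N) n c, hmem _⟩
  have hF : Function.Injective F := by
    intro c c' h
    exact liftMap_injective (Gamma0 N) n (congrArg Subtype.val h)
  have hfin : Finite (Additive (Gamma0 N) →+ ZMod n) := finite_addHom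
  have hcard : Nat.card ↥(parHomsM (Gamma0 N) IsParTor (ZMod n)) ≤
      Nat.card (VIdx (Gamma0 N) → Fin n) := by
    have h1 := card_parHomsM_Gamma0_le N (ZMod n) g hg
    rw [Nat.card_zmod] at h1
    rw [Nat.card_fun, Nat.card_fin, Nat.card_eq_fintype_card (α := VIdx (Gamma0 N))]
    exact h1.trans (Nat.pow_le_pow_right (Nat.pos_of_ne_zero (NeZero.ne n)) hle)
  have hbij := hF.bijective_of_nat_card_le hcard
  obtain ⟨c, hc⟩ := hbij.2 ⟨ψ, hψ⟩
  refine ⟨((∑ i, ((c i : ℕ) : ℤ) • vBasis (Gamma0 N) i : ↥(VZ (Gamma0 N))) :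
    Additive (Gamma0 N) →+ ℤ), Subtype.property _, ?_⟩
  intro γ
  have := congrArg (fun χ : ↥(parHomsM (Gamma0 N) IsParTor (ZMod n)) =>
    (χ : Additive (Gamma0 N) →+ ZMod n) (Additive.ofMul γ)) hc
  exact this

/-- **(LG) main result**: the Shimura class lifts to an integral parabolic homomorphism. -/
theorem exists_shimuraClass_lift (p : ℕ) [Fact p.Prime] :
    ∃ φ : Additive (Gamma0 p) →+ ℤ, φ ∈ parabolicHoms ℤ (Gamma0 p) ℤ ∧
      ∀ γ : Gamma0 p, ((φ (Additive.ofMul γ) : ℤ) : ZMod (eisensteinNumerator p)) =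
        shimuraClass p (Additive.ofMul γ) := by
  have : NeZero p := ⟨(Fact.out : p.Prime).ne_zero⟩
  exact exists_parabolic_lift p (eisensteinNumerator p) (shimuraClass p)
    (shimuraClass_mem_parHomsM p)

end Main

end Fermat.Agent.S16lib.LG
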