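/-
S16 (Eisenstein ideal index), package LG (helper6), part 1.

Scott–Shapiro count over an arbitrary finite abelian coefficient group `M`
(characteristic-free version of `ProgramR/ES/Cocycle.lean`).

`G` a group generated by `x₁, x₂` with `x₁ x₂ x₃ = 1`, `Γ ≤ G` of finite index, `X = G ⧸ Γ`,
`Par` a conjugation invariant predicate on `G` such that `Par (xᵢ ^ m)` whenever `xᵢ ^ m` fixes a
point of `X`.  Then the set `H` of homomorphisms `ψ : Γ → M` vanishing on `Γ ∩ Par` satisfies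
`|H| · |M| ^ (cyc x₁ + cyc x₂ + cyc x₃) ≤ |M| ^ (|X| + 2)`.
-/
import Mathlib
import Fermat.Agent.ProgramR.ES.Cocycle

set_option autoImplicit false

namespace Fermat.Agent.S16lib.LG

open Fermat.Agent.ProgramR.ES Fermat.Agent.ProgramR.Genus

section General

variable {G : Type*} [Group G] (Γ : Subgroup G) {M : Type*} [AddCommGroup M]

/-- The action of `G` on functions `G ⧸ Γ → M`: `(ρ g f) x = f (g⁻¹ x)`. -/
def rhoM (g : G) : ((G ⧸ Γ) → M) →+ ((G ⧸ Γ) → M) where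
  toFun f := fun x => f (g⁻¹ • x)
  map_zero' := rfl
  map_add' _ _ := rfl

@[simp] lemma rhoM_apply (g : G) (f : (G ⧸ Γ) → M) (x : G ⧸ Γ) :
    rhoM Γ g f x = f (g⁻¹ • x) := rfl

lemma rhoM_mul (g h : G) (f : (G ⧸ Γ) → M) : rhoM Γ (g * h) f = rhoM Γ g (rhoM Γ h f) := by
  funext x
  simp only [rhoM_apply, mul_inv_rev, mul_smul]

lemma rhoM_one (f : (G ⧸ Γ) → M) : rhoM Γ (1 : G) f = f := by
  funext x
  simp only [rhoM_apply, inv_one, one_smul]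

lemma rhoM_inv_cancel (g : G) (f : (G ⧸ Γ) → M) : rhoM Γ g⁻¹ (rhoM Γ g f) = f := by
  rw [← rhoM_mul, inv_mul_cancel, rhoM_one]

lemma rhoM_cancel_inv (g : G) (f : (G ⧸ Γ) → M) : rhoM Γ g (rhoM Γ g⁻¹ f) = f := by
  rw [← rhoM_mul, mul_inv_cancel, rhoM_one]

/-- The cocycle attached to a homomorphism `ψ : Γ → M`. -/
noncomputable def cocM (ψ : Additive Γ →+ M) (g : G) : (G ⧸ Γ) → M :=
  fun x => ψ (Additive.ofMul (cocElt Γ g x))

lemma cocM_mul (ψ : Additive Γ →+ M) (g h : G) :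
    cocM Γ ψ (g * h) = cocM Γ ψ g + rhoM Γ g (cocM Γ ψ h) := by
  funext x
  show ψ (Additive.ofMul (cocElt Γ (g * h) x)) =
    ψ (Additive.ofMul (cocElt Γ g x)) + ψ (Additive.ofMul (cocElt Γ h (g⁻¹ • x)))
  rw [cocElt_mul, ofMul_mul, map_add]

lemma cocM_one (ψ : Additive Γ →+ M) : cocM Γ ψ 1 = 0 := by
  have h := cocM_mul Γ ψ 1 1
  rw [mul_one, rhoM_one] at h
  exact left_eq_add.mp h

lemma cocM_pow (ψ : Additive Γ →+ M) (g : G) (n : ℕ) :
    cocM Γ ψ (g ^ n) = ∑ i ∈ Finset.range n, rhoM Γ (g ^ i) (cocM Γ ψ g) := by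
  induction n with
  | zero => simp [cocM_one]
  | succ n ih =>
    rw [pow_succ, cocM_mul, ih, Finset.sum_range_succ]

lemma cocM_add (ψ ψ' : Additive Γ →+ M) (g : G) :
    cocM Γ (ψ + ψ') g = cocM Γ ψ g + cocM Γ ψ' g := by
  funext x
  rfl

/-- Evaluation of the cocycle of `γ ∈ Γ` at the base coset recovers `ψ γ`. -/
lemma cocM_base (ψ : Additive Γ →+ M) (γ : Γ) :
    cocM Γ ψ (γ : G) (QuotientGroup.mk 1 : G ⧸ Γ) = ψ (Additive.ofMul γ) := by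
  set x₀ : G ⧸ Γ := QuotientGroup.mk 1 with hx₀
  have hx : ((γ : G))⁻¹ • x₀ = x₀ := by
    rw [hx₀, smul_mk_eq, mul_one, QuotientGroup.eq]
    simp
  have hr : rep Γ x₀ ∈ Γ := by
    have h := mk_rep Γ x₀
    rw [hx₀, QuotientGroup.eq] at h
    have h2 : (rep Γ (QuotientGroup.mk 1 : G ⧸ Γ))⁻¹ ∈ Γ := by simpa using h
    exact (Subgroup.inv_mem_iff Γ).mp h2
  have helt : cocElt Γ (γ : G) x₀ = (⟨rep Γ x₀, hr⟩ : Γ)⁻¹ * γ * ⟨rep Γ x₀, hr⟩ := by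
    apply Subtype.ext
    show (rep Γ x₀)⁻¹ * (γ : G) * rep Γ (((γ : G))⁻¹ • x₀) = (rep Γ x₀)⁻¹ * (γ : G) * rep Γ x₀
    rw [hx]
  show ψ (Additive.ofMul (cocElt Γ (γ : G) x₀)) = ψ (Additive.ofMul γ)
  rw [helt, ofMul_mul, ofMul_mul, map_add, map_add, ofMul_inv, map_neg]
  abel

/-- If a cocycle agrees with a coboundary on two generators, it agrees everywhere. -/
lemma cocM_eq_coboundary (ψ : Additive Γ →+ M) (v : (G ⧸ Γ) → M) (x₁ x₂ : G)
    (hgen : Subgroup.closure ({x₁, x₂} : Set G) = ⊤)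
    (h1 : cocM Γ ψ x₁ = v - rhoM Γ x₁ v) (h2 : cocM Γ ψ x₂ = v - rhoM Γ x₂ v) (g : G) :
    cocM Γ ψ g = v - rhoM Γ g v := by
  have hg : g ∈ Subgroup.closure ({x₁, x₂} : Set G) := by rw [hgen]; trivial
  induction hg using Subgroup.closure_induction with
  | mem g hg =>
    rcases hg with rfl | hg
    · exact h1
    · rw [Set.mem_singleton_iff] at hg
      subst hg
      exact h2
  | one => rw [cocM_one, rhoM_one, sub_self]
  | mul g h _ _ ihg ihh =>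
    rw [cocM_mul, ihg, ihh, rhoM_mul, map_sub]
    abel
  | inv g _ ih =>
    have h0 := cocM_mul Γ ψ g⁻¹ g
    rw [inv_mul_cancel, cocM_one, ih, map_sub, rhoM_inv_cancel] at h0
    have h4 : cocM Γ ψ g⁻¹ = -(rhoM Γ g⁻¹ v - v) := eq_neg_of_add_eq_zero_left h0.symm
    rw [h4]
    abel

/-- Functions all of whose "period sums" along `g` vanish. -/
def Wsub (g : G) : AddSubgroup ((G ⧸ Γ) → M) where
  carrier := {b | ∀ (x : G ⧸ Γ) (m : ℕ), g ^ m • x = x →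
    ∑ j ∈ Finset.range m, b ((g ^ j)⁻¹ • x) = 0}
  zero_mem' := by
    intro x m _
    simp
  add_mem' := by
    intro a b ha hb x m hm
    simp only [Pi.add_apply, Finset.sum_add_distrib, ha x m hm, hb x m hm, add_zero]
  neg_mem' := by
    intro a ha x m hm
    simp only [Pi.neg_apply, Finset.sum_neg_distrib, ha x m hm, neg_zero]

lemma mem_Wsub_iff (g : G) (b : (G ⧸ Γ) → M) :
    b ∈ Wsub Γ (M := M) g ↔ ∀ (x : G ⧸ Γ) (m : ℕ), g ^ m • x = x →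
      ∑ j ∈ Finset.range m, b ((g ^ j)⁻¹ • x) = 0 := Iff.rfl

/-- Coboundaries have vanishing period sums. -/
lemma sub_rhoM_mem_Wsub (g : G) (v : (G ⧸ Γ) → M) : v - rhoM Γ g v ∈ Wsub Γ (M := M) g := by
  intro x m hm
  have key : ∀ j : ℕ, (v - rhoM Γ g v) ((g ^ j)⁻¹ • x) =
      v ((g ^ j)⁻¹ • x) - v ((g ^ (j + 1))⁻¹ • x) := by
    intro j
    simp only [Pi.sub_apply, rhoM_apply]
    rw [← mul_smul, ← mul_inv_rev, ← pow_succ]
  simp only [key]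
  rw [Finset.sum_range_sub']
  rw [pow_zero, inv_one, one_smul]
  have : (g ^ m)⁻¹ • x = x := by rw [inv_smul_eq_iff, hm]
  rw [this, sub_self]

variable (Par : G → Prop)

/-- Homomorphisms `Γ → M` vanishing on the elements of `Γ` satisfying `Par`. -/
def parHomsM (M : Type*) [AddCommGroup M] : AddSubgroup (Additive Γ →+ M) where
  carrier := {ψ | ∀ γ : Γ, Par (γ : G) → ψ (Additive.ofMul γ) = 0}
  zero_mem' := fun _ _ => rfl
  add_mem' := by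
    intro φ ψ hφ hψ γ hγ
    show φ (Additive.ofMul γ) + ψ (Additive.ofMul γ) = 0
    rw [hφ γ hγ, hψ γ hγ, add_zero]
  neg_mem' := by
    intro φ hφ γ hγ
    show -φ (Additive.ofMul γ) = 0
    rw [hφ γ hγ, neg_zero]

variable {Par}

lemma mem_parHomsM_iff {ψ : Additive Γ →+ M} :
    ψ ∈ parHomsM Γ Par M ↔ ∀ γ : Γ, Par (γ : G) → ψ (Additive.ofMul γ) = 0 := Iff.rfl

/-- The cocycle of a `Par`-vanishing homomorphism has vanishing period sums along `g`, provided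
`Par (g ^ m)` whenever `g ^ m` fixes a point. -/
lemma cocM_mem_Wsub (hPar : ∀ g h : G, Par g → Par (h⁻¹ * g * h)) {ψ : Additive Γ →+ M}
    (hψ : ψ ∈ parHomsM Γ Par M) (g : G)
    (hg : ∀ (x : G ⧸ Γ) (m : ℕ), 0 < m → g ^ m • x = x → Par (g ^ m)) :
    cocM Γ ψ g ∈ Wsub Γ (M := M) g := by
  intro x m hm
  rcases Nat.eq_zero_or_pos m with rfl | hpos
  · simp
  have h1 := congrFun (cocM_pow Γ ψ g m) x
  rw [Finset.sum_apply] at h1
  simp only [rhoM_apply] at h1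
  rw [← h1]
  show ψ (Additive.ofMul (cocElt Γ (g ^ m) x)) = 0
  apply hψ
  have hx : (g ^ m)⁻¹ • x = x := by rw [inv_smul_eq_iff, hm]
  show Par ((rep Γ x)⁻¹ * g ^ m * rep Γ ((g ^ m)⁻¹ • x))
  rw [hx]
  exact hPar _ _ (hg x m hpos hm)

end General


section CardW

variable {G : Type*} [Group G] (Γ : Subgroup G) (M : Type*) [AddCommGroup M] [Finite M]
variable [Fintype (G ⧸ Γ)] [DecidableEq (G ⧸ Γ)]

omit [Finite M] [Fintype (G ⧸ Γ)] [DecidableEq (G ⧸ Γ)] in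
lemma iterate_smul_eq (g : G) (j : ℕ) (x : G ⧸ Γ) :
    (fun y : G ⧸ Γ => g • y)^[j] x = g ^ j • x := by
  induction j generalizing x with
  | zero => simp
  | succ j ih => rw [Function.iterate_succ_apply', ih, pow_succ', mul_smul]

omit [DecidableEq (G ⧸ Γ)] [Finite M] in
/-- An element of `Wsub g` vanishing outside a set of representatives of the cycles of `g`
vanishes. -/
lemma eq_zero_of_mem_Wsub (g : G) (b : (G ⧸ Γ) → M) (hb : b ∈ Wsub Γ (M := M) g)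
    (h0 : ∀ x : G ⧸ Γ, x ∉ Set.range (Quotient.out :
      Quotient (Equiv.Perm.SameCycle.setoid (MulAction.toPerm g : Equiv.Perm (G ⧸ Γ))) → G ⧸ Γ) →
      b x = 0) : b = 0 := by
  classical
  set π : Equiv.Perm (G ⧸ Γ) := MulAction.toPerm g with hπ
  funext x
  by_cases hx : x ∈ Set.range (Quotient.out : Quotient (Equiv.Perm.SameCycle.setoid π) → G ⧸ Γ)
  swap
  · exact h0 x hx
  obtain ⟨q, rfl⟩ := hx
  set x := (Quotient.out q : G ⧸ Γ) with hxdef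
  set f : (G ⧸ Γ) → (G ⧸ Γ) := fun y => g • y with hf
  -- `x` is periodic
  have hper : x ∈ Function.periodicPts f := by
    have hN : 0 < orderOf π := orderOf_pos π
    refine Function.mk_mem_periodicPts hN ?_
    show f^[orderOf π] x = x
    rw [iterate_smul_eq]
    have h1 : π ^ orderOf π = 1 := pow_orderOf_eq_one π
    have h2 : (π ^ orderOf π) x = g ^ orderOf π • x := by
      rw [hπ, ← MulAction.toPermHom_apply, ← map_pow]
      rfl
    rw [← h2, h1]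
    rfl
  set m := Function.minimalPeriod f x with hm
  have hmpos : 0 < m := Function.minimalPeriod_pos_of_mem_periodicPts hper
  have hmx : g ^ m • x = x := by
    have := Function.isPeriodicPt_minimalPeriod f x
    rw [Function.IsPeriodicPt, Function.IsFixedPt, iterate_smul_eq] at this
    exact this
  have hsum := hb x m hmx
  -- all terms with `0 < j < m` vanish
  have hterm : ∀ j ∈ Finset.range m, j ≠ 0 → b ((g ^ j)⁻¹ • x) = 0 := by
    intro j hj hj0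
    apply h0
    rintro ⟨q', hq'⟩
    have hsame : π.SameCycle x ((g ^ j)⁻¹ • x) := by
      refine ⟨-(j : ℤ), ?_⟩
      rw [zpow_neg, zpow_natCast]
      have h2 : (π ^ j) = MulAction.toPerm (g ^ j) := by
        rw [hπ, ← MulAction.toPermHom_apply, ← map_pow]
        rfl
      rw [h2]
      rfl
    have hqq : q' = q := by
      have e1 : (Quotient.mk (Equiv.Perm.SameCycle.setoid π) (Quotient.out q') :
          Quotient (Equiv.Perm.SameCycle.setoid π)) = q' := Quotient.out_eq q'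
      have e2 : (Quotient.mk (Equiv.Perm.SameCycle.setoid π) (Quotient.out q) :
          Quotient (Equiv.Perm.SameCycle.setoid π)) = q := Quotient.out_eq q
      rw [← e1, ← e2, hq']
      exact Quotient.sound (show π.SameCycle ((g ^ j)⁻¹ • x) x from hsame.symm)
    have hfix : (g ^ j)⁻¹ • x = x := by rw [← hq', hqq]
    have hfix' : g ^ j • x = x := by
      have := congrArg (fun y => g ^ j • y) hfix
      simp only [smul_inv_smul] at this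
      exact this.symm
    have hper' : Function.IsPeriodicPt f j x := by
      rw [Function.IsPeriodicPt, Function.IsFixedPt, iterate_smul_eq]
      exact hfix'
    have hle := hper'.minimalPeriod_le (Nat.pos_of_ne_zero hj0)
    have hlt := Finset.mem_range.mp hj
    omega
  rw [Finset.sum_eq_single_of_mem 0 (Finset.mem_range.mpr hmpos) hterm] at hsum
  rw [pow_zero, inv_one, one_smul] at hsum
  exact hsum


omit [DecidableEq (G ⧸ Γ)] in
/-- `|Wsub g| · |M| ^ (number of cycles of g) ≤ |M| ^ |X|`. -/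
lemma card_Wsub_mul_le (g : G) :
    Nat.card (Wsub Γ (M := M) g) *
        Nat.card M ^ cyc (MulAction.toPerm g : Equiv.Perm (G ⧸ Γ))
      ≤ Nat.card M ^ Fintype.card (G ⧸ Γ) := by
  classical
  set π : Equiv.Perm (G ⧸ Γ) := MulAction.toPerm g with hπ
  set S : Set (G ⧸ Γ) := Set.range (Quotient.out :
      Quotient (Equiv.Perm.SameCycle.setoid π) → G ⧸ Γ) with hS
  -- restriction to the complement of `S`
  let res : ↥(Wsub Γ (M := M) g) → (↥(Sᶜ) → M) := fun b x => b.1 x.1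
  have hres : Function.Injective res := by
    intro b b' hbb'
    have hsub : (b.1 - b'.1) ∈ Wsub Γ (M := M) g := AddSubgroup.sub_mem _ b.2 b'.2
    have h0 : b.1 - b'.1 = 0 := by
      apply eq_zero_of_mem_Wsub Γ M g _ hsub
      intro x hx
      have := congrFun hbb' ⟨x, hx⟩
      show b.1 x - b'.1 x = 0
      rw [sub_eq_zero]
      exact this
    exact Subtype.ext (sub_eq_zero.mp h0)
  have h1 : Nat.card ↥(Wsub Γ (M := M) g) ≤ Nat.card (↥(Sᶜ) → M) :=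
    Nat.card_le_card_of_injective res hres
  rw [Nat.card_fun] at h1
  have h2 : Nat.card ↥(Sᶜ) + cyc π = Fintype.card (G ⧸ Γ) := by
    have e1 : Nat.card ↥S = cyc π := by
      rw [hS, cyc]
      exact Nat.card_range_of_injective (fun a b hab => by
        have := congrArg (Quotient.mk (Equiv.Perm.SameCycle.setoid π)) hab
        rwa [Quotient.out_eq, Quotient.out_eq] at this)
    have e2 := Set.ncard_add_ncard_compl S
    have e3 : Nat.card ↥(Sᶜ) = Sᶜ.ncard := _root_.Nat.card_coe_set_eq _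
    have e4 : Nat.card ↥S = S.ncard := _root_.Nat.card_coe_set_eq _
    have e5 : Nat.card (G ⧸ Γ) = Fintype.card (G ⧸ Γ) := Nat.card_eq_fintype_card
    omega
  calc Nat.card ↥(Wsub Γ (M := M) g) * Nat.card M ^ cyc π
      ≤ Nat.card M ^ Nat.card ↥(Sᶜ) * Nat.card M ^ cyc π := Nat.mul_le_mul_right _ h1
    _ = Nat.card M ^ Fintype.card (G ⧸ Γ) := by rw [← pow_add, h2]

end CardW

section Main

variable {G : Type*} [Group G] (Γ : Subgroup G) (M : Type*) [AddCommGroup M]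

/-- The relation map `(b₁, b₂, b₃) ↦ b₁ + ρ(x₁) b₂ + ρ(x₁) ρ(x₂) b₃`. -/
def deltaM (x₁ x₂ x₃ : G) :
    (↥(Wsub Γ (M := M) x₁) × ↥(Wsub Γ (M := M) x₂) × ↥(Wsub Γ (M := M) x₃)) →+
      ((G ⧸ Γ) → M) where
  toFun w := w.1.1 + rhoM Γ x₁ (w.2.1.1 + rhoM Γ x₂ w.2.2.1)
  map_zero' := by simp
  map_add' := by
    intro w w'
    simp only [Prod.fst_add, Prod.snd_add, AddSubgroup.coe_add, map_add]
    abel

/-- The coboundary map `v ↦ (v - ρ(xᵢ) v)ᵢ`. -/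
def betaM (x₁ x₂ x₃ : G) :
    ((G ⧸ Γ) → M) →+
      (↥(Wsub Γ (M := M) x₁) × ↥(Wsub Γ (M := M) x₂) × ↥(Wsub Γ (M := M) x₃)) where
  toFun v := (⟨v - rhoM Γ x₁ v, sub_rhoM_mem_Wsub Γ x₁ v⟩,
    ⟨v - rhoM Γ x₂ v, sub_rhoM_mem_Wsub Γ x₂ v⟩, ⟨v - rhoM Γ x₃ v, sub_rhoM_mem_Wsub Γ x₃ v⟩)
  map_zero' := by
    refine Prod.ext (Subtype.ext ?_) (Prod.ext (Subtype.ext ?_) (Subtype.ext ?_)) <;> simp
  map_add' := by
    intro v w
    refine Prod.ext (Subtype.ext ?_) (Prod.ext (Subtype.ext ?_) (Subtype.ext ?_)) <;>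
    · simp only [map_add, Prod.fst_add, Prod.snd_add, AddSubgroup.coe_add]
      abel

lemma deltaM_betaM (x₁ x₂ x₃ : G) (h123 : x₁ * x₂ * x₃ = 1) (v : (G ⧸ Γ) → M) :
    deltaM Γ M x₁ x₂ x₃ (betaM Γ M x₁ x₂ x₃ v) = 0 := by
  show (v - rhoM Γ x₁ v) + rhoM Γ x₁ ((v - rhoM Γ x₂ v) + rhoM Γ x₂ (v - rhoM Γ x₃ v)) = 0
  have h : rhoM Γ x₁ (rhoM Γ x₂ (rhoM Γ x₃ v)) = v := by
    rw [← rhoM_mul, ← rhoM_mul, h123, rhoM_one]
  simp only [map_add, map_sub, h]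
  abel

lemma card_ker_mul_card_range {A B : Type*} [AddGroup A] [AddGroup B] (f : A →+ B) :
    Nat.card f.ker * Nat.card f.range = Nat.card A := by
  rw [← AddSubgroup.index_ker]
  exact AddSubgroup.card_mul_index _

variable {M} in
lemma cocM_zero_hom (g : G) : cocM Γ (0 : Additive Γ →+ M) g = 0 := by
  funext x
  rfl

variable {M} in
lemma rhoM_single [DecidableEq (G ⧸ Γ)] (g : G) (x : G ⧸ Γ) (a : M) :
    rhoM Γ g (Pi.single x a) = Pi.single (g • x) a := by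
  funext y
  rw [rhoM_apply]
  by_cases h : y = g • x
  · subst h
    rw [inv_smul_smul, Pi.single_eq_same, Pi.single_eq_same]
  · rw [Pi.single_eq_of_ne h, Pi.single_eq_of_ne]
    intro h'
    apply h
    rw [← h', smul_inv_smul]

variable {Par : G → Prop}

/-- The map `(ψ, v) ↦ (cocM ψ xᵢ + (v - ρ(xᵢ) v))ᵢ`. -/
noncomputable def phiM (hPar : ∀ g h : G, Par g → Par (h⁻¹ * g * h)) (x₁ x₂ x₃ : G)
    (hx₁ : ∀ (x : G ⧸ Γ) (m : ℕ), 0 < m → x₁ ^ m • x = x → Par (x₁ ^ m))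
    (hx₂ : ∀ (x : G ⧸ Γ) (m : ℕ), 0 < m → x₂ ^ m • x = x → Par (x₂ ^ m))
    (hx₃ : ∀ (x : G ⧸ Γ) (m : ℕ), 0 < m → x₃ ^ m • x = x → Par (x₃ ^ m)) :
    (↥(parHomsM Γ Par M) × ((G ⧸ Γ) → M)) →+
      (↥(Wsub Γ (M := M) x₁) × ↥(Wsub Γ (M := M) x₂) × ↥(Wsub Γ (M := M) x₃)) :=
  AddMonoidHom.mk' (fun p =>
    (⟨cocM Γ p.1.1 x₁ + (p.2 - rhoM Γ x₁ p.2),
        add_mem (cocM_mem_Wsub Γ hPar p.1.2 x₁ hx₁) (sub_rhoM_mem_Wsub Γ x₁ p.2)⟩,
      ⟨cocM Γ p.1.1 x₂ + (p.2 - rhoM Γ x₂ p.2),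
        add_mem (cocM_mem_Wsub Γ hPar p.1.2 x₂ hx₂) (sub_rhoM_mem_Wsub Γ x₂ p.2)⟩,
      ⟨cocM Γ p.1.1 x₃ + (p.2 - rhoM Γ x₃ p.2),
        add_mem (cocM_mem_Wsub Γ hPar p.1.2 x₃ hx₃) (sub_rhoM_mem_Wsub Γ x₃ p.2)⟩))
    (by
      intro p q
      refine Prod.ext (Subtype.ext ?_) (Prod.ext (Subtype.ext ?_) (Subtype.ext ?_)) <;>
      · simp only [Prod.fst_add, Prod.snd_add, AddSubgroup.coe_add, cocM_add, map_add]
        abel)

lemma deltaM_phiM (hPar : ∀ g h : G, Par g → Par (h⁻¹ * g * h)) (x₁ x₂ x₃ : G)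
    (hx₁ : ∀ (x : G ⧸ Γ) (m : ℕ), 0 < m → x₁ ^ m • x = x → Par (x₁ ^ m))
    (hx₂ : ∀ (x : G ⧸ Γ) (m : ℕ), 0 < m → x₂ ^ m • x = x → Par (x₂ ^ m))
    (hx₃ : ∀ (x : G ⧸ Γ) (m : ℕ), 0 < m → x₃ ^ m • x = x → Par (x₃ ^ m))
    (h123 : x₁ * x₂ * x₃ = 1) (p : ↥(parHomsM Γ Par M) × ((G ⧸ Γ) → M)) :
    deltaM Γ M x₁ x₂ x₃ (phiM Γ M hPar x₁ x₂ x₃ hx₁ hx₂ hx₃ p) = 0 := by
  have hb := deltaM_betaM Γ M x₁ x₂ x₃ h123 p.2
  have hb' : (p.2 - rhoM Γ x₁ p.2) +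
      rhoM Γ x₁ ((p.2 - rhoM Γ x₂ p.2) + rhoM Γ x₂ (p.2 - rhoM Γ x₃ p.2)) = 0 := hb
  have hc : cocM Γ p.1.1 x₁ + rhoM Γ x₁ (cocM Γ p.1.1 x₂ + rhoM Γ x₂ (cocM Γ p.1.1 x₃)) = 0 := by
    rw [← cocM_mul, ← cocM_mul, ← mul_assoc, h123, cocM_one]
  show (cocM Γ p.1.1 x₁ + (p.2 - rhoM Γ x₁ p.2)) +
    rhoM Γ x₁ ((cocM Γ p.1.1 x₂ + (p.2 - rhoM Γ x₂ p.2)) +
      rhoM Γ x₂ (cocM Γ p.1.1 x₃ + (p.2 - rhoM Γ x₃ p.2))) = 0
  have e : (cocM Γ p.1.1 x₁ + (p.2 - rhoM Γ x₁ p.2)) +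
    rhoM Γ x₁ ((cocM Γ p.1.1 x₂ + (p.2 - rhoM Γ x₂ p.2)) +
      rhoM Γ x₂ (cocM Γ p.1.1 x₃ + (p.2 - rhoM Γ x₃ p.2))) =
    (cocM Γ p.1.1 x₁ + rhoM Γ x₁ (cocM Γ p.1.1 x₂ + rhoM Γ x₂ (cocM Γ p.1.1 x₃))) +
    ((p.2 - rhoM Γ x₁ p.2) +
      rhoM Γ x₁ ((p.2 - rhoM Γ x₂ p.2) + rhoM Γ x₂ (p.2 - rhoM Γ x₃ p.2))) := by
    simp only [map_add]
    abel
  rw [e, hc, hb', add_zero]

omit [AddCommGroup M] in
lemma smul_base_eq (γ : Γ) : ((γ : G))⁻¹ • (QuotientGroup.mk 1 : G ⧸ Γ) = QuotientGroup.mk 1 := by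
  rw [smul_mk_eq, mul_one, QuotientGroup.eq]
  simp

/-- The kernel of `phiM`: `ψ = 0` and `v` is constant. -/
lemma phiM_eq_zero (hPar : ∀ g h : G, Par g → Par (h⁻¹ * g * h)) (x₁ x₂ x₃ : G)
    (hx₁ : ∀ (x : G ⧸ Γ) (m : ℕ), 0 < m → x₁ ^ m • x = x → Par (x₁ ^ m))
    (hx₂ : ∀ (x : G ⧸ Γ) (m : ℕ), 0 < m → x₂ ^ m • x = x → Par (x₂ ^ m))
    (hx₃ : ∀ (x : G ⧸ Γ) (m : ℕ), 0 < m → x₃ ^ m • x = x → Par (x₃ ^ m))
    (hgen : Subgroup.closure ({x₁, x₂} : Set G) = ⊤)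
    (p : ↥(parHomsM Γ Par M) × ((G ⧸ Γ) → M))
    (hp : phiM Γ M hPar x₁ x₂ x₃ hx₁ hx₂ hx₃ p = 0) :
    p.1 = 0 ∧ ∀ x : G ⧸ Γ, p.2 x = p.2 (QuotientGroup.mk 1) := by
  obtain ⟨ψ, v⟩ := p
  have h1 : cocM Γ ψ.1 x₁ + (v - rhoM Γ x₁ v) = 0 := congrArg (fun w => (w.1 : (G ⧸ Γ) → M)) hp
  have h2 : cocM Γ ψ.1 x₂ + (v - rhoM Γ x₂ v) = 0 :=
    congrArg (fun w => (w.2.1 : (G ⧸ Γ) → M)) hp
  have h1' : cocM Γ ψ.1 x₁ = (-v) - rhoM Γ x₁ (-v) := by
    rw [map_neg, eq_neg_of_add_eq_zero_left h1]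
    abel
  have h2' : cocM Γ ψ.1 x₂ = (-v) - rhoM Γ x₂ (-v) := by
    rw [map_neg, eq_neg_of_add_eq_zero_left h2]
    abel
  have hall := cocM_eq_coboundary Γ ψ.1 (-v) x₁ x₂ hgen h1' h2'
  have hψ : ψ.1 = 0 := by
    apply AddMonoidHom.ext
    intro a
    obtain ⟨γ, rfl⟩ := Additive.ofMul.surjective a
    rw [← cocM_base, hall (γ : G)]
    simp only [Pi.sub_apply, rhoM_apply, smul_base_eq]
    simp
  refine ⟨Subtype.ext hψ, ?_⟩
  intro x
  induction x using Quotient.inductionOn with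
  | _ g =>
    have hg := hall g
    rw [hψ, cocM_zero_hom] at hg
    have hg' := congrFun hg (g • (QuotientGroup.mk 1 : G ⧸ Γ))
    simp only [Pi.zero_apply, Pi.sub_apply, rhoM_apply, inv_smul_smul, Pi.neg_apply] at hg'
    have e : (Quotient.mk'' g : G ⧸ Γ) = g • (QuotientGroup.mk 1 : G ⧸ Γ) := by
      rw [smul_mk_eq, mul_one]
    show v (Quotient.mk'' g) = _
    rw [e]
    have := sub_eq_zero.mp hg'.symm
    exact neg_injective this

/-- `single x a - single (g • x) a` lies in the range of `deltaM`. -/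
lemma single_sub_single_mem_range [DecidableEq (G ⧸ Γ)] (x₁ x₂ x₃ : G)
    (hgen : Subgroup.closure ({x₁, x₂} : Set G) = ⊤) (g : G) (x : G ⧸ Γ) (a : M) :
    (Pi.single x a - Pi.single (g • x) a : (G ⧸ Γ) → M) ∈ (deltaM Γ M x₁ x₂ x₃).range := by
  set R := (deltaM Γ M x₁ x₂ x₃).range with hR
  have hP1 : ∀ (x : G ⧸ Γ) (a : M),
      (Pi.single x a - Pi.single (x₁ • x) a : (G ⧸ Γ) → M) ∈ R := by
    intro x a
    refine ⟨(⟨Pi.single x a - rhoM Γ x₁ (Pi.single x a), sub_rhoM_mem_Wsub Γ x₁ _⟩, 0, 0), ?_⟩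
    show (Pi.single x a - rhoM Γ x₁ (Pi.single x a)) + rhoM Γ x₁ (0 + rhoM Γ x₂ 0) = _
    rw [rhoM_single]
    simp
  have hP2' : ∀ (y : G ⧸ Γ) (a : M),
      (Pi.single (x₁ • y) a - Pi.single (x₁ • x₂ • y) a : (G ⧸ Γ) → M) ∈ R := by
    intro y a
    refine ⟨(0, ⟨Pi.single y a - rhoM Γ x₂ (Pi.single y a), sub_rhoM_mem_Wsub Γ x₂ _⟩, 0), ?_⟩
    show (0 : (G ⧸ Γ) → M) +
      rhoM Γ x₁ ((Pi.single y a - rhoM Γ x₂ (Pi.single y a)) + rhoM Γ x₂ 0) = _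
    rw [rhoM_single]
    simp only [map_zero, add_zero, zero_add, map_sub, rhoM_single]
  have hP2 : ∀ (x : G ⧸ Γ) (a : M),
      (Pi.single x a - Pi.single (x₂ • x) a : (G ⧸ Γ) → M) ∈ R := by
    intro y a
    have e : (Pi.single y a - Pi.single (x₂ • y) a : (G ⧸ Γ) → M) =
        (Pi.single y a - Pi.single (x₁ • y) a) +
        (Pi.single (x₁ • y) a - Pi.single (x₁ • x₂ • y) a) -
        (Pi.single (x₂ • y) a - Pi.single (x₁ • x₂ • y) a) := by abel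
    rw [e]
    exact sub_mem (add_mem (hP1 y a) (hP2' y a)) (hP1 (x₂ • y) a)
  have hg : g ∈ Subgroup.closure ({x₁, x₂} : Set G) := by rw [hgen]; trivial
  induction hg using Subgroup.closure_induction generalizing x with
  | mem g hg =>
    rcases hg with rfl | hg
    · exact hP1 x a
    · rw [Set.mem_singleton_iff] at hg
      subst hg
      exact hP2 x a
  | one => rw [one_smul, sub_self]; exact zero_mem _
  | mul g h _ _ ihg ihh =>
    have e : (Pi.single x a - Pi.single ((g * h) • x) a : (G ⧸ Γ) → M) =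
        (Pi.single x a - Pi.single (h • x) a) +
        (Pi.single (h • x) a - Pi.single (g • h • x) a) := by
      rw [mul_smul]; abel
    rw [e]
    exact add_mem (ihh x) (ihg (h • x))
  | inv g _ ih =>
    have e : (Pi.single x a - Pi.single (g⁻¹ • x) a : (G ⧸ Γ) → M) =
        -(Pi.single (g⁻¹ • x) a - Pi.single (g • g⁻¹ • x) a) := by
      rw [smul_inv_smul]; abel
    rw [e]
    exact neg_mem (ih (g⁻¹ • x))

/-- The sum map `(X → M) → M`. -/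
def sigmaM [Fintype (G ⧸ Γ)] : ((G ⧸ Γ) → M) →+ M where
  toFun v := ∑ x, v x
  map_zero' := by simp
  map_add' := by
    intro v w
    simp only [Pi.add_apply, Finset.sum_add_distrib]

lemma ker_sigmaM_le_range [Fintype (G ⧸ Γ)] [DecidableEq (G ⧸ Γ)] (x₁ x₂ x₃ : G)
    (hgen : Subgroup.closure ({x₁, x₂} : Set G) = ⊤) :
    (sigmaM Γ M).ker ≤ (deltaM Γ M x₁ x₂ x₃).range := by
  intro v hv
  have hv' : ∑ x, v x = 0 := hv
  set x₀ : G ⧸ Γ := QuotientGroup.mk 1 with hx₀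
  have e : v = ∑ x, (Pi.single x (v x) - Pi.single x₀ (v x) : (G ⧸ Γ) → M) := by
    rw [Finset.sum_sub_distrib, Finset.univ_sum_single]
    have : ∑ x, (Pi.single x₀ (v x) : (G ⧸ Γ) → M) = Pi.single x₀ (∑ x, v x) := by
      funext y
      rw [Finset.sum_apply]
      by_cases hy : y = x₀
      · subst hy
        simp
      · simp [Pi.single_eq_of_ne hy]
    rw [this, hv', Pi.single_zero, sub_zero]
  rw [e]
  refine sum_mem ?_
  intro x _
  induction x using Quotient.inductionOn with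
  | _ g =>
    have e2 : (Quotient.mk'' g : G ⧸ Γ) = g • x₀ := by
      rw [hx₀, smul_mk_eq, mul_one]
    show (Pi.single (Quotient.mk'' g) (v (Quotient.mk'' g)) -
      Pi.single x₀ (v (Quotient.mk'' g)) : (G ⧸ Γ) → M) ∈ _
    rw [e2]
    have := single_sub_single_mem_range Γ M x₁ x₂ x₃ hgen g x₀ (v (g • x₀))
    have e3 : (Pi.single (g • x₀) (v (g • x₀)) - Pi.single x₀ (v (g • x₀)) : (G ⧸ Γ) → M) =
        -(Pi.single x₀ (v (g • x₀)) - Pi.single (g • x₀) (v (g • x₀))) := by abel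
    rw [e3]
    exact neg_mem this

/-- **Scott–Shapiro count.**  `|H| · |M| ^ (cyc x₁ + cyc x₂ + cyc x₃) ≤ |M| ^ (|X| + 2)`. -/
theorem card_parHomsM_mul_le [Finite M] [Fintype (G ⧸ Γ)]
    (hPar : ∀ g h : G, Par g → Par (h⁻¹ * g * h)) (x₁ x₂ x₃ : G)
    (hx₁ : ∀ (x : G ⧸ Γ) (m : ℕ), 0 < m → x₁ ^ m • x = x → Par (x₁ ^ m))
    (hx₂ : ∀ (x : G ⧸ Γ) (m : ℕ), 0 < m → x₂ ^ m • x = x → Par (x₂ ^ m))
    (hx₃ : ∀ (x : G ⧸ Γ) (m : ℕ), 0 < m → x₃ ^ m • x = x → Par (x₃ ^ m))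
    (h123 : x₁ * x₂ * x₃ = 1) (hgen : Subgroup.closure ({x₁, x₂} : Set G) = ⊤) :
    Nat.card ↥(parHomsM Γ Par M) *
        Nat.card M ^ (cyc (MulAction.toPerm x₁ : Equiv.Perm (G ⧸ Γ)) +
          cyc (MulAction.toPerm x₂ : Equiv.Perm (G ⧸ Γ)) +
          cyc (MulAction.toPerm x₃ : Equiv.Perm (G ⧸ Γ)))
      ≤ Nat.card M ^ (Fintype.card (G ⧸ Γ) + 2) := by
  classical
  set m := Nat.card M with hm
  set N := Fintype.card (G ⧸ Γ) with hN
  set c₁ := cyc (MulAction.toPerm x₁ : Equiv.Perm (G ⧸ Γ)) with hc₁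
  set c₂ := cyc (MulAction.toPerm x₂ : Equiv.Perm (G ⧸ Γ)) with hc₂
  set c₃ := cyc (MulAction.toPerm x₃ : Equiv.Perm (G ⧸ Γ)) with hc₃
  set h := Nat.card ↥(parHomsM Γ Par M) with hh
  set Φ := phiM Γ M hPar x₁ x₂ x₃ hx₁ hx₂ hx₃ with hΦ
  set δ := deltaM Γ M x₁ x₂ x₃ with hδ
  have hmpos : 0 < m := Nat.card_pos
  have hXM : Nat.card ((G ⧸ Γ) → M) = m ^ N := by
    rw [Nat.card_fun, Nat.card_eq_fintype_card (α := G ⧸ Γ)]
  -- F1
  have F1 : h * m ^ N = Nat.card Φ.ker * Nat.card Φ.range := by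
    rw [card_ker_mul_card_range, Nat.card_prod, hXM]
  -- F2
  have F2 : Nat.card Φ.ker ≤ m := by
    let ev : ↥Φ.ker → M := fun p => p.1.2 (QuotientGroup.mk 1)
    have hev : Function.Injective ev := by
      intro p q hpq
      have hsub : p.1 - q.1 ∈ Φ.ker := sub_mem p.2 q.2
      have hz := phiM_eq_zero Γ M hPar x₁ x₂ x₃ hx₁ hx₂ hx₃ hgen (p.1 - q.1) hsub
      apply Subtype.ext
      apply sub_eq_zero.mp
      refine Prod.ext hz.1 ?_
      funext x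
      rw [hz.2 x]
      show p.1.2 (QuotientGroup.mk 1) - q.1.2 (QuotientGroup.mk 1) = 0
      rw [sub_eq_zero]
      exact hpq
    exact Nat.card_le_card_of_injective ev hev
  -- F3
  have F3 : Nat.card Φ.range ≤ Nat.card δ.ker := by
    apply AddSubgroup.card_le_of_le
    rintro w ⟨p, rfl⟩
    exact deltaM_phiM Γ M hPar x₁ x₂ x₃ hx₁ hx₂ hx₃ h123 p
  -- F4
  have F4 : Nat.card δ.ker * Nat.card δ.range =
      Nat.card ↥(Wsub Γ (M := M) x₁) * (Nat.card ↥(Wsub Γ (M := M) x₂) *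
        Nat.card ↥(Wsub Γ (M := M) x₃)) := by
    rw [card_ker_mul_card_range, Nat.card_prod, Nat.card_prod]
  -- F5
  have F5 : m ^ N ≤ Nat.card δ.range * m := by
    rw [← hXM, ← card_ker_mul_card_range (sigmaM Γ M)]
    apply Nat.mul_le_mul
    · exact AddSubgroup.card_le_of_le (ker_sigmaM_le_range Γ M x₁ x₂ x₃ hgen)
    · exact Nat.card_le_card_of_injective _ Subtype.val_injective
  -- F6
  have F6₁ := card_Wsub_mul_le Γ M x₁
  have F6₂ := card_Wsub_mul_le Γ M x₂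
  have F6₃ := card_Wsub_mul_le Γ M x₃
  set w₁ := Nat.card ↥(Wsub Γ (M := M) x₁)
  set w₂ := Nat.card ↥(Wsub Γ (M := M) x₂)
  set w₃ := Nat.card ↥(Wsub Γ (M := M) x₃)
  set k := Nat.card Φ.ker
  set i := Nat.card Φ.range
  set z := Nat.card δ.ker
  set r := Nat.card δ.range
  -- arithmetic
  have A1 : h * m ^ N * m ^ N ≤ m * m * (w₁ * (w₂ * w₃)) := by
    calc h * m ^ N * m ^ N ≤ h * m ^ N * (r * m) := Nat.mul_le_mul_left _ F5
      _ = k * i * (r * m) := by rw [F1]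
      _ ≤ m * z * (r * m) := Nat.mul_le_mul_right _ (Nat.mul_le_mul F2 F3)
      _ = m * m * (z * r) := by ring
      _ = m * m * (w₁ * (w₂ * w₃)) := by rw [F4]
  have A2 : (w₁ * m ^ c₁) * ((w₂ * m ^ c₂) * (w₃ * m ^ c₃)) ≤ m ^ N * (m ^ N * m ^ N) :=
    Nat.mul_le_mul F6₁ (Nat.mul_le_mul F6₂ F6₃)
  have A3 : h * m ^ (c₁ + c₂ + c₃) * (m ^ N * m ^ N) ≤ m ^ (N + 2) * (m ^ N * m ^ N) := by
    calc h * m ^ (c₁ + c₂ + c₃) * (m ^ N * m ^ N)
        = h * m ^ N * m ^ N * (m ^ c₁ * (m ^ c₂ * m ^ c₃)) := by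
          rw [pow_add, pow_add]; ring
      _ ≤ m * m * (w₁ * (w₂ * w₃)) * (m ^ c₁ * (m ^ c₂ * m ^ c₃)) := Nat.mul_le_mul_right _ A1
      _ = m * m * ((w₁ * m ^ c₁) * ((w₂ * m ^ c₂) * (w₃ * m ^ c₃))) := by ring
      _ ≤ m * m * (m ^ N * (m ^ N * m ^ N)) := Nat.mul_le_mul_left _ A2
      _ = m ^ (N + 2) * (m ^ N * m ^ N) := by rw [pow_add]; ring
  exact Nat.le_of_mul_le_mul_right A3 (by positivity)

end Main

end Fermat.Agent.S16lib.LG
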