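/-
S16 (Eisenstein ideal index), packages LG (helper6) + LH (helper1): the lower bound (LB).

`λ(P) = 0 → eisensteinNumerator p ∣ ε(P)` for every abstract Hecke polynomial `P`:
the integral lift of the Shimura class (`LG.exists_shimuraClass_lift`) fed into
`LH.lower_bound_of_lift`.
-/
import Mathlib
import Fermat.Agent.S16lib.LG.Lift
import Fermat.Agent.S16lib.LH.LowerBound

set_option autoImplicit false

namespace Fermat.Agent.S16lib.LG

open Matrix.SpecialLinearGroup CongruenceSubgroup ModularCurve ModularCurve.Period CuspForm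
open scoped MatrixGroups ModularGroup

variable (p : ℕ) [Fact p.Prime]

/-- The discrete logarithm modulo `n` as a function on `ℤ/p` (zero at `0`). -/
noncomputable def kappaLog (x : ZMod p) : ZMod (eisensteinNumerator p) :=
  open scoped Classical in
  if h : x = 0 then 0 else logMod p (Additive.ofMul (Units.mk0 x h))

lemma kappaLog_unit (u : (ZMod p)ˣ) : kappaLog p (u : ZMod p) = logMod p (Additive.ofMul u) := by
  unfold kappaLog
  rw [dif_neg u.ne_zero]
  congr 2
  exact Units.ext rfl

lemma kappaLog_mul (x y : ZMod p) (hx : x ≠ 0) (hy : y ≠ 0) :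
    kappaLog p (x * y) = kappaLog p x + kappaLog p y := by
  have hx' : x = ((Units.mk0 x hx : (ZMod p)ˣ) : ZMod p) := rfl
  have hy' : y = ((Units.mk0 y hy : (ZMod p)ˣ) : ZMod p) := rfl
  rw [hx', hy', ← Units.val_mul, kappaLog_unit, kappaLog_unit, kappaLog_unit, ofMul_mul, map_add]

lemma shimuraClass_eq_kappaLog (γ : Gamma0 p) :
    shimuraClass p (Additive.ofMul γ) = kappaLog p (Gamma0Map p γ) := by
  rw [shimuraClass_apply, ← kappaLog_unit]
  rfl

/-- **(LB)**: if the abstract Hecke polynomial `P` acts as zero on `S₂(Γ₀(p))`, then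
`eisensteinNumerator p` divides its Eisenstein value `ε(P)`. -/
theorem lower_bound (P : HeckeAlg) (hP : heckeEvalForms p 2 P = 0) :
    ((eisensteinNumerator p : ℕ) : ℤ) ∣
      MvPolynomial.aeval (R := ℤ) (eisensteinSystem p) P := by
  obtain ⟨φ, hφ, hlift⟩ := exists_shimuraClass_lift p
  refine Fermat.Agent.S16lib.LH.lower_bound_of_lift p (eisensteinNumerator p)
    (eisensteinNumerator_dvd p) φ (kappaLog p) (mem_parabolicHoms_iff.mp hφ)
    (kappaLog_mul p) ?_ ?_ P hP
  · intro γ
    rw [hlift γ, shimuraClass_eq_kappaLog]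
  · obtain ⟨a, ha⟩ := shimuraClass_surjective p 1
    refine ⟨Additive.toMul a, ?_⟩
    rw [hlift]
    exact ha

end Fermat.Agent.S16lib.LG
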